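import Fermat.Agent.EichlerShimura.Ramified
import Fermat.Agent.RedTorsion.TraceVal

/-!
# Values at the points over a residue disc, and the divisors of reduced functions

For a model with good reduction, the points over the residue disc of `t` carry as many zeros of an
integral function as the points over `t` carry of its reduction.
-/

set_option autoImplicit false

noncomputable section

open scoped Classical
open Polynomial IsLocalRing AlgebraicCurve

namespace Fermat.Agent.EichlerShimura

open Fermat.Agent.FF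

section Value

variable {K F : Type*} [Field K] [Field F] [Algebra K F] [IsAlgClosed K] [IsFunctionField K F]

theorem bijective_algebraMap_residueField (P : Place K F) :
    Function.Bijective (algebraMap K P.ResidueField) := by
  have := finite_residueField P
  exact IsAlgClosed.algebraMap_bijective_of_isIntegral (k := K) (K := P.ResidueField)

/-- The value of a regular function at a rational place. -/
def valAtP (P : Place K F) : P.toValuationSubring →+* K :=
  (RingEquiv.ofBijective _ (bijective_algebraMap_residueField P)).symm.toRingHom.comp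
    (IsLocalRing.residue P.toValuationSubring)

theorem algebraMap_valAtP (P : Place K F) (f : P.toValuationSubring) :
    algebraMap K P.ResidueField (valAtP P f) = IsLocalRing.residue P.toValuationSubring f :=
  (RingEquiv.ofBijective _ (bijective_algebraMap_residueField P)).apply_symm_apply _

theorem sub_valAtP_mem (P : Place K F) {f : F} (hf : f ∈ P.toValuationSubring) :
    f - algebraMap K F (valAtP P ⟨f, hf⟩) ∈ ordGe P 1 := by
  have h0 : IsLocalRing.residue _ ((⟨f, hf⟩ : P.toValuationSubring) -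
      algebraMap K P.toValuationSubring (valAtP P ⟨f, hf⟩)) = 0 := by
    rw [map_sub, sub_eq_zero]
    exact (algebraMap_valAtP P _).symm
  rw [IsLocalRing.residue_eq_zero_iff] at h0
  rw [RedTorsion.mem_ordGe_one_iff]
  exact ValuationSubring.coe_mem_nonunits_iff.mpr h0

theorem valAtP_eq_of_sub_mem (P : Place K F) {f : F} (hf : f ∈ P.toValuationSubring) {a : K}
    (h : f - algebraMap K F a ∈ ordGe P 1) : valAtP P ⟨f, hf⟩ = a := by
  have h1 := sub_mem h (sub_valAtP_mem P hf)
  rw [sub_sub_sub_cancel_left, ← map_sub, RedTorsion.algebraMap_mem_ordGe_one_iff, sub_eq_zero] at h1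
  exact h1

end Value

theorem ord_placeAtPt_algebraMap {K₀ : Type*} [Field K₀] (c : K₀) {p : K₀[X]} (hp : p ≠ 0) :
    (placeAtPt c).ord (algebraMap K₀[X] (RatFunc K₀) p) = p.rootMultiplicity c := by
  obtain ⟨r, hr, hr'⟩ := exists_eq_pow_rootMultiplicity_mul_and_not_dvd p hp c
  rw [dvd_iff_isRoot, IsRoot] at hr'
  have hr0 : algebraMap K₀[X] (RatFunc K₀) r ≠ 0 :=
    (map_ne_zero_iff _ (RatFunc.algebraMap_injective K₀)).mpr fun h => hr' (by rw [h, eval_zero])
  conv_lhs => rw [hr, map_mul, map_pow]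
  rw [show algebraMap K₀[X] (RatFunc K₀) (X - C c) = unifAt c from rfl,
    (placeAtPt c).ord_mul (pow_ne_zero _ (unifAt_ne_zero c)) hr0, ord_pow, ord_unifAt,
    ord_eq_zero_of_unit (placeAtPt c) hr0 (algebraMap_mem_Loc c r)
      (inv_apply_mem_fracPart (show r.eval c ≠ 0 from hr') hr0), mul_one, add_zero]

theorem inertiaDeg_eq_one {K F G : Type*} [Field K] [Field F] [Field G] [Algebra K F] [Algebra K G]
    [Algebra G F] [IsScalarTower K G F] [FiniteDimensional G F] [IsAlgClosed K]
    [IsFunctionField K G] [IsFunctionField K F] (P : Place K F) : P.inertiaDeg G = 1 := by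
  have := P.deg_restrict_mul_inertiaDeg (F := G)
  rw [deg_eq_one, deg_eq_one, one_mul] at this
  exact this

theorem ord_norm_eq {K F G : Type*} [Field K] [Field F] [Field G] [Algebra K F] [Algebra K G]
    [Algebra G F] [IsScalarTower K G F] [FiniteDimensional G F] [IsAlgClosed K]
    [IsFunctionField K G] [IsFunctionField K F] (v : Place K G) {f : F} (hf : f ≠ 0) :
    v.ord (Algebra.norm G f) = ∑ w ∈ v.fiber F, w.ord f := by
  rw [ord_norm v hf]
  exact Finset.sum_congr rfl fun w _ => by rw [inertiaDeg_eq_one]; simp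

theorem placeAtPt_injective {K₀ : Type*} [Field K₀] :
    Function.Injective (placeAtPt : K₀ → Place K₀ (RatFunc K₀)) := fun c d h => by
  by_contra hne
  have h1 := ord_placeAtPt_algebraMap d (X_sub_C_ne_zero c)
  rw [rootMultiplicity_X_sub_C, if_neg (Ne.symm hne), ← h,
    ord_placeAtPt_algebraMap c (X_sub_C_ne_zero c), rootMultiplicity_X_sub_C_self] at h1
  norm_num at h1

section Coeff

variable {L : Type*} [Field L] {A : ValuationSubring L}

theorem residue_evalLoc {t : Kappa A} {c : A} (hc : residue A c = t) {f : RatFunc L}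
    (hf : f ∈ Lam A ({t} : Set (Kappa A))) :
    ∃ h : evalLoc (c : L) ⟨f, Lam_le_Loc (T := {t}) hc hf⟩ ∈ A,
      residue A ⟨_, h⟩ = evalLoc t ⟨_, redG_mem_Loc (Set.mem_singleton t) hf⟩ := by
  obtain ⟨p, q, hq, hpq⟩ := mem_Lam.mp hf
  have hqt := hq.2 t (Set.mem_singleton t)
  have hqc : residue A (q.eval c) ≠ 0 := by rw [residue_eval, hc]; exact hqt
  obtain ⟨u, hu⟩ := isUnit_iff_exists_inv.mp ((residue_ne_zero_iff_isUnit _).mp hqc)
  have hu' : ((q.eval c : A) : L) * (u : L) = 1 := congrArg Subtype.val hu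
  have hqc' : (polyIncl A q).eval (c : L) ≠ 0 := by
    rw [← coe_eval]
    exact left_ne_zero_of_mul_eq_one hu'
  have he : evalLoc (c : L) ⟨f, Lam_le_Loc (T := {t}) hc hf⟩ = ((p.eval c * u : A) : L) := by
    rw [evalLoc_eq ⟨f, _⟩ hqc' hpq, ← coe_eval, ← coe_eval, div_eq_iff (left_ne_zero_of_mul_eq_one hu')]
    push_cast
    rw [mul_assoc, mul_comm (u : L), hu', mul_one]
  refine ⟨he ▸ (p.eval c * u).2, ?_⟩
  rw [show (⟨_, he ▸ (p.eval c * u).2⟩ : A) = p.eval c * u from Subtype.ext he, map_mul,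
    evalLoc_eq (p := polyBar A p) (q := polyBar A q) _ hqt
      (redG_mul_bar (Lam_le_Og _ hf) hq.1 hpq), residue_eval, hc, eq_div_iff hqt]
  conv_lhs => rw [← hc]
  rw [mul_assoc, ← residue_eval q c, ← map_mul, mul_comm u, hu, map_one, mul_one, hc]

end Coeff

variable {L : Type*} [Field L] [IsAlgClosed L] {A : ValuationSubring L}
variable {ι : Type*} [Fintype ι] [DecidableEq ι]
variable {E : Type*} [Field E] [Algebra (RatFunc L) E] [Algebra L E] [IsScalarTower L (RatFunc L) E]
  [FiniteDimensional (RatFunc L) E] [IsFunctionField L E]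
variable {Eb : Type*} [Field Eb] [Algebra (RatFunc (Kappa A)) Eb] [Algebra (Kappa A) Eb]
  [IsScalarTower (Kappa A) (RatFunc (Kappa A)) Eb] [FiniteDimensional (RatFunc (Kappa A)) Eb]
  [IsFunctionField (Kappa A) Eb] [IsAlgClosed (Kappa A)]

/-- `P` lies over the residue disc of `t`. -/
def OverDisc (t : Kappa A) (P : Place L E) : Prop :=
  ∃ c : A, residue A c = t ∧ P.restrict (RatFunc L) = placeAtPt (c : L)

omit [IsAlgClosed L] [IsFunctionField L E] in
theorem algebraMap_mem_place {c : L} {P : Place L E} (hP : P.restrict (RatFunc L) = placeAtPt c)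
    {f : RatFunc L} (hf : f ∈ Loc c) : algebraMap (RatFunc L) E f ∈ P.toValuationSubring := by
  rw [← placeAtPt_toValuationSubring c, ← hP, Place.restrict_toValuationSubring] at hf
  exact hf

theorem valAtP_algebraMap {c : L} {P : Place L E} (hP : P.restrict (RatFunc L) = placeAtPt c)
    {f : RatFunc L} (hf : f ∈ Loc c) :
    valAtP P ⟨_, algebraMap_mem_place hP hf⟩ = evalLoc c ⟨f, hf⟩ := by
  refine valAtP_eq_of_sub_mem P _ ?_
  rw [IsScalarTower.algebraMap_apply L (RatFunc L) E, ← map_sub]
  have hC : (algebraMap L (RatFunc L) (evalLoc c ⟨f, hf⟩)) ∈ Loc c := C_mem_Loc c _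
  obtain ⟨g, hg, hfg⟩ := exists_eq_unifAt_mul (sub_mem hf hC) (by
    rw [show (⟨f - algebraMap L (RatFunc L) (evalLoc c ⟨f, hf⟩), sub_mem hf hC⟩ : Loc c) =
      ⟨f, hf⟩ - ⟨_, hC⟩ from rfl, map_sub,
      evalLoc_eq (p := C (evalLoc c ⟨f, hf⟩)) (q := 1) ⟨_, hC⟩ (by simp)
        (by simp [RatFunc.algebraMap_C, RatFunc.algebraMap_eq_C]), eval_C, eval_one,
      _root_.div_one, sub_self])
  rw [hfg, map_mul]
  have h1 : algebraMap (RatFunc L) E (unifAt c) ∈ ordGe P 1 := by
    refine mem_ordGe_of_le P ?_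
    rw [P.ord_restrict, hP, ord_unifAt, mul_one]
    exact_mod_cast P.ramificationIndex_pos (F := RatFunc L)
  simpa using mul_mem_ordGe P h1 ((mem_ordGe_zero P).mpr (algebraMap_mem_place hP hg))

omit [IsAlgClosed L] [IsFunctionField L E] in
theorem mem_place_of_isIntegral {c : L} {P : Place L E} (hP : P.restrict (RatFunc L) = placeAtPt c)
    {y : E} (hy : IsIntegral (Loc c).toSubring y) : y ∈ P.toValuationSubring := by
  obtain ⟨p, hp, hpy⟩ := hy
  refine ValuationSubring.intClosedIn P.toValuationSubring y ⟨p.map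
    (((algebraMap (RatFunc L) E).comp (Loc c).toSubring.subtype).codRestrict
      P.toValuationSubring.toSubring fun f => algebraMap_mem_place hP f.2), hp.map _, ?_⟩
  rw [eval₂_map]
  exact hpy

/-- The support of a function as a finset. -/
def suppFin (y : E) : Finset (Place L E) := (finite_support (K := L) y).toFinset

omit [IsAlgClosed L] [Algebra (RatFunc L) E] [IsScalarTower L (RatFunc L) E]
  [FiniteDimensional (RatFunc L) E] in
theorem notMem_suppFin {y : E} {P : Place L E} : P ∉ suppFin y ↔ P.ord y = 0 := by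
  simp [suppFin]

omit [IsAlgClosed L] [Algebra (RatFunc L) E] [IsScalarTower L (RatFunc L) E]
  [FiniteDimensional (RatFunc L) E] in
theorem sum_filter_suppFin (p : Place L E → Prop) [DecidablePred p] {y : E} {S : Finset (Place L E)}
    (hS : suppFin y ⊆ S) : ∑ P ∈ (suppFin y).filter p, P.ord y = ∑ P ∈ S.filter p, P.ord y :=
  Finset.sum_subset (Finset.filter_subset_filter _ hS) fun P hP hP' => by
    simp only [Finset.mem_filter] at hP hP'
    exact notMem_suppFin.mp fun h => hP' ⟨h, hP.2⟩

omit [IsAlgClosed L] [Algebra (RatFunc L) E] [IsScalarTower L (RatFunc L) E]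
  [FiniteDimensional (RatFunc L) E] in
theorem sum_filter_suppFin_mul (p : Place L E → Prop) [DecidablePred p] {y z : E} (hy : y ≠ 0) (hz : z ≠ 0) :
    ∑ P ∈ (suppFin (y * z)).filter p, P.ord (y * z) =
      ∑ P ∈ (suppFin y).filter p, P.ord y + ∑ P ∈ (suppFin z).filter p, P.ord z := by
  set S : Finset (Place L E) := suppFin (y * z) ∪ suppFin y ∪ suppFin z
  rw [sum_filter_suppFin p (S := S) (by intro P hP; simp [S, hP]),
    sum_filter_suppFin p (y := y) (S := S) (by intro P hP; simp [S, hP]),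
    sum_filter_suppFin p (y := z) (S := S) (by intro P hP; simp [S, hP]), ← Finset.sum_add_distrib]
  exact Finset.sum_congr rfl fun P _ => P.ord_mul hy hz

namespace Model

variable (M : Model A ι E Eb) {t : Kappa A}

omit [IsAlgClosed L] [IsFunctionField L E] in
omit [IsAlgClosed (Kappa A)] in
theorem mem_place_of_Rint {c : A} (hc : residue A c = t) {P : Place L E}
    (hP : P.restrict (RatFunc L) = placeAtPt (c : L)) {y : E}
    (hy : y ∈ Rint E ({t} : Set (Kappa A))) : y ∈ P.toValuationSubring :=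
  mem_place_of_isIntegral hP (isIntegral_mono (Lam_le_Loc (T := {t}) hc) (mem_Rint.mp hy))

omit [IsAlgClosed L] [IsFunctionField L E] in
omit [IsAlgClosed (Kappa A)] in
theorem ord_nonneg_of_Rint {P : Place L E} (hP : OverDisc t P)
    (Y : Rint E ({t} : Set (Kappa A))) : 0 ≤ P.ord (Y : E) := by
  obtain ⟨c, hc, hP⟩ := hP
  exact ord_nonneg P (mem_place_of_Rint hc hP Y.2)

/-- Equality of the total orders over the residue disc and over its centre. -/
theorem sum_disc_eq {Y : Rint E ({t} : Set (Kappa A))} (hY : M.redT {t} Y ≠ 0) :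
    ∑ P ∈ (suppFin (Y : E)).filter (OverDisc t), P.ord (Y : E) =
      ∑ Q ∈ (placeAtPt t).fiber Eb, Q.ord (M.redT {t} Y) := by
  have := M.finite
  have := M.finite'
  have hY0 : (Y : E) ≠ 0 := fun h => hY (by rw [show Y = 0 from Subtype.ext h, map_zero])
  have hN : Algebra.norm (RatFunc L) (Y : E) ∈ Lam A {t} :=
    norm_mem (Lam_intClosedIn _) (mem_Rint.mp Y.2)
  obtain ⟨hNg, hNr⟩ := M.norm_red (M.incl {t} Y)
  have hNbar : redG A ⟨_, Lam_le_Og _ hN⟩ = Algebra.norm (RatFunc (Kappa A)) (M.redT {t} Y) := hNr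
  obtain ⟨p, q, hq, hpq⟩ := mem_Lam.mp hN
  have hqt := hq.2 t (Set.mem_singleton t)
  have hN0 : Algebra.norm (RatFunc L) (Y : E) ≠ 0 := Algebra.norm_ne_zero_iff.mpr hY0
  have hNb0 : Algebra.norm (RatFunc (Kappa A)) (M.redT {t} Y) ≠ 0 := Algebra.norm_ne_zero_iff.mpr hY
  have hbar := redG_mul_bar (Lam_le_Og _ hN) hq.1 hpq
  rw [hNbar] at hbar
  have hp : polyBar A p ≠ 0 := fun h => by
    rw [ratBar_eq_zero_iff.mpr h, mul_eq_zero] at hbar
    exact hbar.elim hNb0 (ratBar_ne_zero_of_mem hq.1)
  have hordt : (placeAtPt t).ord (Algebra.norm (RatFunc (Kappa A)) (M.redT {t} Y)) =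
      (polyBar A p).rootMultiplicity t := by
    have h1 := congrArg (placeAtPt t).ord hbar
    rw [(placeAtPt t).ord_mul hNb0 (ratBar_ne_zero_of_mem hq.1), ratBar, RingHom.comp_apply,
      RingHom.comp_apply, ord_placeAtPt_algebraMap t hq.1, ord_placeAtPt_algebraMap t hp,
      rootMultiplicity_eq_zero (p := polyBar A q) hqt, Nat.cast_zero, add_zero] at h1
    exact h1
  rw [← ord_norm_eq (placeAtPt t) hY, hordt, ← card_filter_roots_eq p hp t]
  set R := (polyIncl A p).roots.filter fun r => r ∈ A ∧ res A r = t with hR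
  have hp0 : polyIncl A p ≠ 0 := fun h => hp (by
    rw [show p = 0 from polyIncl_injective (by rw [h, map_zero]), map_zero])
  have hq0 : polyIncl A q ≠ 0 := fun h => hq.1 (by
    rw [show q = 0 from polyIncl_injective (by rw [h, map_zero]), map_zero])
  have hqc : ∀ c : A, residue A c = t → (polyIncl A q).eval (c : L) ≠ 0 := fun c hc h0 => by
    refine hqt ?_
    rw [← hc, ← residue_eval, show q.eval c = 0 from Subtype.ext (by rw [coe_eval]; exact h0),
      map_zero]
  have hfib : ∀ c : A, residue A c = t →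
      ∑ P ∈ (placeAtPt (c : L)).fiber E, P.ord (Y : E) =
        ((polyIncl A p).rootMultiplicity (c : L) : ℤ) := fun c hc => by
    rw [← ord_norm_eq (placeAtPt (c : L)) hY0]
    have h1 := congrArg (placeAtPt (c : L)).ord hpq
    rw [(placeAtPt (c : L)).ord_mul hN0
      ((map_ne_zero_iff _ ratIncl_injective).mpr (fun h => hq.1 (by rw [h, map_zero]))),
      ratIncl, RingHom.comp_apply, RingHom.comp_apply, ord_placeAtPt_algebraMap _ hp0,
      ord_placeAtPt_algebraMap _ hq0, rootMultiplicity_eq_zero (hqc c hc), Nat.cast_zero,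
      add_zero] at h1
    exact h1
  set U := R.toFinset.biUnion fun r => (placeAtPt r).fiber E with hU
  have hmemR : ∀ r ∈ R.toFinset, ∃ c : A, (c : L) = r ∧ residue A c = t := fun r hr => by
    rw [Multiset.mem_toFinset, hR, Multiset.mem_filter] at hr
    exact ⟨⟨r, hr.2.1⟩, rfl, by rw [← res_of_mem hr.2.1]; exact hr.2.2⟩
  have hsum : ∑ P ∈ U, P.ord (Y : E) = (Multiset.card R : ℤ) := by
    rw [hU, Finset.sum_biUnion, ← Multiset.toFinset_sum_count_eq, Nat.cast_sum]
    · refine Finset.sum_congr rfl fun r hr => ?_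
      obtain ⟨c, rfl, hc⟩ := hmemR r hr
      rw [hfib c hc, hR, Multiset.count_filter_of_pos ⟨c.2, (res_coe c).trans hc⟩, count_roots]
    · intro r _ s _ hrs
      refine Finset.disjoint_left.mpr fun P hP hP' => hrs (placeAtPt_injective ?_)
      rw [← Place.mem_fiber.mp hP, ← Place.mem_fiber.mp hP']
  rw [← hsum]
  refine Eq.trans ?_ (Finset.sum_subset (Finset.filter_subset (fun P => P.ord (Y : E) ≠ 0) U)
    fun P hP hP' => by simpa [hP] using hP')
  refine Finset.sum_congr ?_ fun _ _ => rfl
  ext P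
  simp only [Finset.mem_filter, suppFin, Set.Finite.mem_toFinset, Set.mem_ofPred_eq, hU,
    Finset.mem_biUnion, Place.mem_fiber]
  constructor
  · rintro ⟨hne, c, hc, hP⟩
    refine ⟨⟨c, ?_, hP⟩, hne⟩
    have hpos : 0 < P.ord (Y : E) := lt_of_le_of_ne (ord_nonneg_of_Rint ⟨c, hc, hP⟩ Y) (Ne.symm hne)
    have hge : P.ord (Y : E) ≤ ∑ P' ∈ (placeAtPt (c : L)).fiber E, P'.ord (Y : E) :=
      Finset.single_le_sum (f := fun P' : Place L E => P'.ord (Y : E))
        (fun P' hP' => ord_nonneg_of_Rint ⟨c, hc, Place.mem_fiber.mp hP'⟩ Y) (Place.mem_fiber.mpr hP)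
    rw [hfib c hc] at hge
    rw [Multiset.mem_toFinset, hR, Multiset.mem_filter]
    refine ⟨?_, c.2, (res_coe c).trans hc⟩
    rw [← Multiset.count_pos, count_roots]
    omega
  · rintro ⟨⟨r, hr, hP⟩, hne⟩
    obtain ⟨c, rfl, hc⟩ := hmemR r hr
    exact ⟨hne, c, hc, hP⟩

end Model

end Fermat.Agent.EichlerShimura
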