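import Fermat.Agent.EichlerShimura.AlgShortcuts
import Fermat.Agent.FF.Bound
import Fermat.Agent.RedTorsion.SeriesModel
import Fermat.Prelude.Def_ModularCurve_ReductionModL

/-!
# The model of `X₀(N)` at a prime of good reduction: principal divisors

Principal divisors are generated by those of functions with integral series and nonzero reduction.
-/

set_option autoImplicit false

noncomputable section

open Polynomial IsLocalRing AlgebraicCurve ModularCurve
open scoped Classical

namespace Fermat.Agent.EichlerShimura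

open Fermat.Agent.FF Fermat.Agent.RedTorsion

theorem isScalarTower_ratAlgebra {K F : Type*} [Field K] [Field F] [Algebra K F] {x : F}
    (hx : Transcendental K x) :
    letI := ratAlgebra hx
    IsScalarTower K (RatFunc K) F :=
  letI := ratAlgebra hx
  IsScalarTower.of_algebraMap_eq fun c => by
    show algebraMap K F c = ratLine hx (algebraMap K (RatFunc K) c)
    rw [RatFunc.algebraMap_eq_C, ratLine_C]

/-- Elements of the lattice have a common primitive denominator. -/
theorem Model.exists_common_den {L : Type*} [Field L] {A : ValuationSubring L} {ι : Type*} [Fintype ι]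
    {E : Type*} [CommRing E] [Algebra (RatFunc L) E] {Eb : Type*} [CommRing Eb]
    [Algebra (RatFunc (Kappa A)) Eb] (M : Model A ι E Eb) (z : M.S) :
    ∃ (d : A[X]) (p : ι → A[X]), polyBar A d ≠ 0 ∧
      (z : E) * algebraMap (RatFunc L) E (ratIncl A d) =
        ∑ i, algebraMap (RatFunc L) E (ratIncl A (p i)) * M.b i := by
  choose p q hq h using fun i => mem_Og.mp (z.2 i)
  refine ⟨∏ i, q i, fun i => p i * ∏ l ∈ Finset.univ.erase i, q l, ?_, ?_⟩
  · rw [map_prod]
    exact Finset.prod_ne_zero_iff.mpr fun i _ => hq i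
  · conv_lhs => rw [← M.b.sum_repr (z : E)]
    rw [Finset.sum_mul]
    refine Finset.sum_congr rfl fun i hi => ?_
    rw [← Finset.mul_prod_erase _ _ hi, Algebra.smul_def, map_mul, map_mul, map_mul (ratIncl A),
      map_mul (algebraMap (RatFunc L) E), mul_comm (algebraMap _ E (M.b.repr _ i)) (M.b i), mul_assoc,
      ← mul_assoc (algebraMap _ E (M.b.repr _ i)), ← map_mul (algebraMap (RatFunc L) E), h i,
      mul_comm (M.b i)]

section

local notation "Qb" => AlgebraicClosure ℚ

variable {N : ℕ} [NeZero N] {A : ValuationSubring Qb}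

local notation "Fb" => modularFunctionFieldBar N
local notation "Fk" => modularFunctionFieldFullC (Kappa A) N

omit [NeZero N] in
theorem hFb : modularFunctionFieldBar N = modularFunctionFieldFullC Qb N :=
  ModFun.laurentBaseChange_eq_fullC N Qb

theorem isFunctionField_bar : FF.IsFunctionField Qb Fb :=
  isFunctionField_full hFb (Nat.cast_ne_zero.mpr (NeZero.ne N))

/-- Every nonzero function is a constant times a quotient of integral functions with nonzero
reduction. -/
theorem exists_fraction [IsAlgClosed (Kappa A)] (hNA : (N : Kappa A) ≠ 0) {f : Fb} (hf : f ≠ 0) :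
    ∃ (c : Qb) (u w : sint A Fb), c ≠ 0 ∧ redF hFb hNA u ≠ 0 ∧ redF hFb hNA w ≠ 0 ∧
      f = algebraMap Qb Fb c * ((u : Fb) / (w : Fb)) := by
  let _ := ratAlgebra (transcendental_jF (F := Fb) hFb)
  let _ := ratAlgebra (transcendental_jF (K := Kappa A) (N := N) (F := Fk) rfl)
  have := isScalarTower_ratAlgebra (transcendental_jF (F := Fb) hFb)
  obtain ⟨c, hc, z, hfz, hz⟩ := (model hFb hNA).exists_scale' hf
  obtain ⟨d, p, hd, hzd⟩ := (model hFb hNA).exists_common_den z
  have he : ∀ q : A[X], algebraMap (RatFunc Qb) Fb (ratIncl A q) =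
      ((evalS (F := Fb) hFb q : sint A Fb) : Fb) := fun q => by
    rw [coe_evalS]
    exact ratLine_algebraMap (transcendental_jF (F := Fb) hFb) _
  set w : sint A Fb := evalS hFb d with hw
  let u : sint A Fb := ∑ i, evalS hFb (p i) * ⟨_, basisInt_mem hFb hNA i⟩
  have hu : (u : Fb) = (z : Fb) * (w : Fb) := by
    rw [hw, ← he, hzd, AddSubmonoidClass.coe_finsetSum]
    refine Finset.sum_congr rfl fun i _ => ?_
    rw [he]
    rfl
  have hwr : redF hFb hNA w ≠ 0 := fun h => by
    have h' := congrArg Subtype.val h
    rw [coe_redF, hw, sred_evalS, ZeroMemClass.coe_zero] at h'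
    exact hd ((transcendental_iff_injective.mp (Igusa.transcendental_jqModC (Kappa A)))
      (h'.trans (map_zero _).symm))
  have hur : redF hFb hNA u ≠ 0 := by
    have h : (⟨_, mem_model_S hFb hNA u⟩ : (model hFb hNA).S) =
        z * ⟨_, mem_model_S hFb hNA w⟩ := Subtype.ext hu
    have h' := congrArg (model hFb hNA).red h
    rw [map_mul, model_red, model_red] at h'
    rw [h']
    exact mul_ne_zero hz hwr
  have hw0 : (w : Fb) ≠ 0 := fun h => hwr (by rw [show w = 0 from Subtype.ext h, map_zero])
  refine ⟨c, u, w, hc, hur, hwr, ?_⟩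
  rw [hu, mul_div_assoc, div_self hw0, mul_one, hfz,
    ← RatFunc.algebraMap_eq_C, ← IsScalarTower.algebraMap_apply]

/-- Principal divisors are generated by those of integral functions with nonzero reduction. -/
theorem principalGeneratedByIntegral [IsAlgClosed (Kappa A)] (hNA : (N : Kappa A) ≠ 0) :
    PrincipalGeneratedByIntegral A (residue A) N := by
  have := isFunctionField_bar (N := N)
  intro D hD
  obtain ⟨f, hf, hDf⟩ := hD
  have key : ∀ u : sint A Fb, redF hFb hNA u ≠ 0 →
      FF.div Qb (u : Fb) ∈ integralPrincipalDivisors A (residue A) N := fun u hu => by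
    obtain ⟨y, hy⟩ := u.2
    have hy' : coeffMap A.subtype y = ((u : Fb) : LaurentSeries Qb) := hy
    have hr : coeffMap (residue A) y = (redF hFb hNA u : LaurentSeries (Kappa A)) := by
      rw [coe_redF, ← serRed_coeffMap y ⟨y, rfl⟩]
      exact congrArg (serRed A) (Subtype.ext hy')
    refine ⟨y, hy' ▸ (u : Fb).2, hr ▸ (redF hFb hNA u).2,
      fun h => hu (Subtype.ext (hr.symm.trans h)), fun P => ?_⟩
    exact congrArg P.ord (Subtype.ext hy'.symm)
  obtain ⟨c, u, w, hc, hur, hwr, hfeq⟩ := exists_fraction hNA hf
  have hu0 : (u : Fb) ≠ 0 := fun h => hur (by rw [show u = 0 from Subtype.ext h, map_zero])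
  have hw0 : (w : Fb) ≠ 0 := fun h => hwr (by rw [show w = 0 from Subtype.ext h, map_zero])
  have hDeq : D = FF.div Qb (u : Fb) - FF.div Qb (w : Fb) := by
    ext P
    rw [Finsupp.sub_apply, FF.div_apply, FF.div_apply, hDf P, hfeq,
      P.ord_mul ((_root_.map_ne_zero _).mpr hc) (div_ne_zero hu0 hw0), ord_algebraMap, zero_add,
      FF.ord_div P hu0 hw0]
  rw [hDeq]
  exact sub_mem (AddSubgroup.subset_closure (key u hur)) (AddSubgroup.subset_closure (key w hwr))

end

end Fermat.Agent.EichlerShimura
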