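import Fermat.Agent.EichlerShimura.Cover
import Fermat.Agent.EichlerShimura.Model

/-!
# The chart at infinity: `X ↦ 1/X`
-/

set_option autoImplicit false

noncomputable section

open Polynomial IsLocalRing

namespace Fermat.Agent.EichlerShimura

section Field

variable {K₀ : Type*} [Field K₀]

theorem transcendental_inv_X : Transcendental K₀ ((RatFunc.X : RatFunc K₀)⁻¹) := by
  intro h
  have h' : IsAlgebraic K₀ (RatFunc.X : RatFunc K₀) := IsAlgebraic.inv_iff.mp h
  obtain ⟨p, hp, hpX⟩ := h'
  rw [← RatFunc.algebraMap_X, aeval_algebraMap_apply, aeval_X_left_apply] at hpX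
  exact hp ((map_eq_zero_iff _ (RatFunc.algebraMap_injective K₀)).mp hpX)

variable (K₀) in
/-- `X ↦ 1/X`. -/
def invXHom : RatFunc K₀ →+* RatFunc K₀ :=
  RatFunc.liftRingHom (aeval ((RatFunc.X : RatFunc K₀)⁻¹)).toRingHom
    (nonZeroDivisors_le_comap_nonZeroDivisors_of_injective _
      (transcendental_iff_injective.mp transcendental_inv_X))

theorem invXHom_algebraMap (p : K₀[X]) :
    invXHom K₀ (algebraMap K₀[X] (RatFunc K₀) p) = aeval ((RatFunc.X : RatFunc K₀)⁻¹) p := by
  rw [invXHom, RatFunc.liftRingHom_algebraMap]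
  rfl

@[simp] theorem invXHom_C (a : K₀) : invXHom K₀ (RatFunc.C a) = RatFunc.C a := by
  rw [← RatFunc.algebraMap_C, invXHom_algebraMap, aeval_C, RatFunc.algebraMap_C]
  rfl

@[simp] theorem invXHom_X : invXHom K₀ RatFunc.X = (RatFunc.X : RatFunc K₀)⁻¹ := by
  rw [← RatFunc.algebraMap_X, invXHom_algebraMap, aeval_X, RatFunc.algebraMap_X]

theorem invXHom_invXHom (f : RatFunc K₀) : invXHom K₀ (invXHom K₀ f) = f := by
  have h : ∀ p : K₀[X], invXHom K₀ (invXHom K₀ (algebraMap K₀[X] (RatFunc K₀) p)) =
      algebraMap K₀[X] (RatFunc K₀) p := fun p => by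
    induction p using Polynomial.induction_on' with
    | add p q hp hq => simp only [map_add, hp, hq]
    | monomial n a =>
      simp only [← C_mul_X_pow_eq_monomial, map_mul, map_pow, RatFunc.algebraMap_C,
        RatFunc.algebraMap_X, invXHom_C, invXHom_X, map_inv₀, inv_inv]
  rw [← RatFunc.num_div_denom f]
  simp only [map_div₀, h]

variable (K₀) in
/-- The automorphism `X ↦ 1/X`. -/
def invX : RatFunc K₀ ≃+* RatFunc K₀ :=
  { invXHom K₀ with
    invFun := invXHom K₀
    left_inv := invXHom_invXHom
    right_inv := invXHom_invXHom }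

theorem invX_apply (f : RatFunc K₀) : invX K₀ f = invXHom K₀ f := rfl

theorem invX_invX (f : RatFunc K₀) : invX K₀ (invX K₀ f) = f := invXHom_invXHom f

end Field

variable {L : Type*} [Field L] {A : ValuationSubring L}

theorem invXHom_ratIncl {p : A[X]} {D : ℕ} (hD : p.natDegree ≤ D) :
    invXHom L (ratIncl A p) * ratIncl A X ^ D = ratIncl A (homog 1 X p D) := by
  refine map_homog ((invXHom L).comp (ratIncl A)) (ratIncl A) (fun a => ?_) ?_ hD
  · rw [RingHom.comp_apply, ratIncl_C, invXHom_C]
  · simp only [RingHom.comp_apply, ratIncl, polyIncl, coe_mapRingHom, map_X, RatFunc.algebraMap_X,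
      invXHom_X, map_one]
    exact inv_mul_cancel₀ RatFunc.X_ne_zero

theorem invXHom_ratBar {p : A[X]} {D : ℕ} (hD : p.natDegree ≤ D) :
    invXHom (Kappa A) (ratBar A p) * ratBar A X ^ D = ratBar A (homog 1 X p D) := by
  refine map_homog ((invXHom (Kappa A)).comp (ratBar A)) (ratBar A) (fun a => ?_) ?_ hD
  · rw [RingHom.comp_apply, ratBar_C, invXHom_C]
  · simp only [RingHom.comp_apply, ratBar, polyBar, coe_mapRingHom, map_X, RatFunc.algebraMap_X,
      invXHom_X, map_one]
    exact inv_mul_cancel₀ RatFunc.X_ne_zero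

theorem ratBar_X_ne_zero : ratBar A X ≠ 0 := by
  simp [ratBar, polyBar, RatFunc.algebraMap_X, RatFunc.X_ne_zero]

theorem invX_frac {f : RatFunc L} {p q : A[X]} (hq : polyBar A q ≠ 0)
    (h : f * ratIncl A q = ratIncl A p) :
    invXHom L f * ratIncl A (homog 1 X q (max p.natDegree q.natDegree)) =
      ratIncl A (homog 1 X p (max p.natDegree q.natDegree)) ∧
    polyBar A (homog 1 X q (max p.natDegree q.natDegree)) ≠ 0 := by
  refine ⟨by rw [← invXHom_ratIncl (le_max_right _ _), ← invXHom_ratIncl (le_max_left _ _),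
    ← mul_assoc, ← map_mul, h], fun h0 => ?_⟩
  have h1 := invXHom_ratBar (le_max_right p.natDegree q.natDegree)
  rw [ratBar_eq_zero_iff.mpr h0, mul_eq_zero] at h1
  rcases h1 with h1 | h1
  · exact ratBar_ne_zero_of_mem hq ((map_eq_zero _).mp h1)
  · exact pow_ne_zero _ ratBar_X_ne_zero h1

theorem invX_mem_Og {f : RatFunc L} (hf : f ∈ Og A) : invX L f ∈ Og A := by
  obtain ⟨p, q, hq, h⟩ := mem_Og.mp hf
  obtain ⟨h1, h2⟩ := invX_frac hq h
  exact ⟨_, _, h2, h1⟩

theorem redG_invX {f : RatFunc L} (hf : f ∈ Og A) :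
    redG A ⟨_, invX_mem_Og hf⟩ = invX (Kappa A) (redG A ⟨f, hf⟩) := by
  obtain ⟨p, q, hq, h⟩ := mem_Og.mp hf
  obtain ⟨h1, h2⟩ := invX_frac hq h
  rw [redG_eq ⟨f, hf⟩ hq h, redG_eq ⟨_, invX_mem_Og hf⟩ h2 h1, invX_apply, map_div₀,
    ← invXHom_ratBar (le_max_left p.natDegree q.natDegree),
    ← invXHom_ratBar (le_max_right p.natDegree q.natDegree),
    mul_div_mul_right _ _ (pow_ne_zero _ ratBar_X_ne_zero)]

/-- A type synonym carrying the algebra structure of the chart at infinity. -/
def Flipped (B : Type*) : Type _ := B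

instance {B : Type*} [CommRing B] : CommRing (Flipped B) := ‹CommRing B›

instance {B : Type*} [h : Field B] : Field (Flipped B) := h

instance {K₀ B : Type*} [Field K₀] [CommRing B] [Algebra (RatFunc K₀) B] :
    Algebra (RatFunc K₀) (Flipped B) :=
  RingHom.toAlgebra (R := RatFunc K₀) (S := Flipped B)
    ((algebraMap (RatFunc K₀) B).comp (invX K₀).toRingHom : RatFunc K₀ →+* B)

/-- The identity as a ring isomorphism. -/
def flipRing (B : Type*) [CommRing B] : B ≃+* Flipped B := RingEquiv.refl B

variable {ι : Type*} [Fintype ι]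

section Basis

variable {K₀ : Type*} [Field K₀] {B : Type*} [CommRing B] [Algebra (RatFunc K₀) B]

theorem algebraMap_flipped (c : RatFunc K₀) :
    algebraMap (RatFunc K₀) (Flipped B) c = flipRing B (algebraMap (RatFunc K₀) B (invX K₀ c)) :=
  rfl

theorem flipRing_smul (c : RatFunc K₀) (x : B) :
    flipRing B (c • x) = invX K₀ c • flipRing B x := by
  rw [Algebra.smul_def, Algebra.smul_def, map_mul, algebraMap_flipped, invX_invX]

/-- A basis in the chart at infinity. -/
def flipBasis (b : Module.Basis ι (RatFunc K₀) B) : Module.Basis ι (RatFunc K₀) (Flipped B) :=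
  Module.Basis.ofEquivFun
    { toFun := fun x i => invX K₀ (b.repr ((flipRing B).symm x) i)
      invFun := fun c => flipRing B (∑ i, invX K₀ (c i) • b i)
      map_add' := fun x y => funext fun i => by simp
      map_smul' := fun c x => funext fun i => by
        obtain ⟨y, rfl⟩ := (flipRing B).surjective x
        conv_lhs => rw [show c • flipRing B y = flipRing B (invX K₀ c • y) by
          rw [flipRing_smul, invX_invX]]
        simp [invX_invX]
      left_inv := fun x => by
        obtain ⟨y, rfl⟩ := (flipRing B).surjective x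
        simp [invX_invX, b.sum_repr]
      right_inv := fun c => funext fun i => by
        simp only [RingEquiv.symm_apply_apply]
        rw [b.repr_sum_self, invX_invX] }

theorem flipBasis_repr (b : Module.Basis ι (RatFunc K₀) B) (x : B) (i : ι) :
    (flipBasis b).repr (flipRing B x) i = invX K₀ (b.repr x i) := by
  rw [← Module.Basis.equivFun_apply]
  simp [flipBasis]

theorem flipBasis_apply [DecidableEq ι] (b : Module.Basis ι (RatFunc K₀) B) (i : ι) :
    flipBasis b i = flipRing B (b i) := by
  refine (flipBasis b).ext_elem fun j => ?_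
  rw [flipBasis_repr, b.repr_self, Module.Basis.repr_self, Finsupp.single_apply]
  split <;> simp

theorem trace_flipped (b : Module.Basis ι (RatFunc K₀) B) (x : B) :
    Algebra.trace (RatFunc K₀) (Flipped B) (flipRing B x) =
      invX K₀ (Algebra.trace (RatFunc K₀) B x) := by
  classical
  rw [Algebra.trace_eq_matrix_trace (flipBasis b), Algebra.trace_eq_matrix_trace b, Matrix.trace,
    Matrix.trace, map_sum]
  refine Finset.sum_congr rfl fun l _ => ?_
  rw [Matrix.diag_apply, Matrix.diag_apply, Algebra.leftMulMatrix_eq_repr_mul,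
    Algebra.leftMulMatrix_eq_repr_mul, flipBasis_apply, ← map_mul, flipBasis_repr]

theorem discr_flipBasis [DecidableEq ι] (b : Module.Basis ι (RatFunc K₀) B) :
    Algebra.discr (RatFunc K₀) (flipBasis b) = invX K₀ (Algebra.discr (RatFunc K₀) b) := by
  rw [Algebra.discr_def, Algebra.discr_def, RingEquiv.map_det]
  congr 1
  ext i j
  rw [RingEquiv.mapMatrix_apply, Matrix.map_apply, Algebra.traceMatrix_apply,
    Algebra.traceMatrix_apply, Algebra.traceForm_apply, Algebra.traceForm_apply, flipBasis_apply,
    flipBasis_apply, ← map_mul, trace_flipped b]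

end Basis

namespace Model

variable {E : Type*} [CommRing E] [Algebra (RatFunc L) E] {Eb : Type*} [CommRing Eb]
  [Algebra (RatFunc (Kappa A)) Eb] (M : Model A ι E Eb)

/-- The model in the chart at infinity. -/
def flip : Model A ι (Flipped E) (Flipped Eb) where
  b := flipBasis M.b
  bb := flipBasis M.bb
  one_int i := by
    rw [← map_one (flipRing E), flipBasis_repr]; exact invX_mem_Og (M.one_int i)
  one_red i := by
    simp only [← map_one (flipRing E), ← map_one (flipRing Eb), flipBasis_repr]
    rw [redG_invX (M.one_int i), M.one_red]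
  mul_int i j l := by
    classical
    rw [flipBasis_apply, flipBasis_apply, ← map_mul, flipBasis_repr]
    exact invX_mem_Og (M.mul_int i j l)
  mul_red i j l := by
    classical
    simp only [flipBasis_apply, ← map_mul, flipBasis_repr]
    rw [redG_invX (M.mul_int i j l), M.mul_red]
  disc_ne := by
    intro _
    rw [discr_flipBasis]
    exact (_root_.map_ne_zero _).mpr M.disc_ne

theorem mem_flip_S {y : E} (hy : y ∈ M.S) : flipRing E y ∈ M.flip.S := fun i => by
  show (flipBasis M.b).repr (flipRing E y) i ∈ Og A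
  rw [flipBasis_repr]
  exact invX_mem_Og (hy i)

theorem flip_red (y : M.S) :
    M.flip.red ⟨flipRing E (y : E), M.mem_flip_S y.2⟩ = flipRing Eb (M.red y) := by
  refine M.flip.bb.ext_elem fun i => ?_
  rw [Model.repr_red]
  show redG A ⟨(flipBasis M.b).repr (flipRing E (y : E)) i, _⟩ = (flipBasis M.bb).repr _ i
  simp only [flipBasis_repr]
  rw [redG_invX (y.2 i), Model.repr_red]
  rfl

end Model

end Fermat.Agent.EichlerShimura
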