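import Fermat.Prelude.Def_ModularCurve_X0ModL
import Fermat.Prelude.Def_ModularCurve_ArithmeticGalois

/-!
# Instance shortcuts for the modular function fields

The searches for these algebra structures through `LaurentSeries` take seconds each.
-/

set_option autoImplicit false

noncomputable section

namespace Fermat.Agent.EichlerShimura

open ModularCurve

/-- Shortcut: the search through `LaurentSeries` is slow. -/
instance (priority := 5000) instAlgebraFunctionFieldFullC (K : Type*) [Field K] (N : ℕ) :
    Algebra K (modularFunctionFieldFullC K N) :=
  inferInstance

/-- Shortcut: the search through `LaurentSeries` is slow. -/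
instance (priority := 5000) instAlgebraFunctionFieldBar (N : ℕ) :
    Algebra (AlgebraicClosure ℚ) (modularFunctionFieldBar N) :=
  inferInstance

end Fermat.Agent.EichlerShimura
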